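import Mathlib
import Fermat.Agent.RT.Raise.Core
import Fermat.Agent.RT.Intertwine.Block
import Fermat.Agent.RT.Build

/-!
# Raising levels from Hecke sides

One deformation problem, a Hecke side for every set of raised sites and matrices between them
which intertwine traces and reduce to split maps at the base give a raising level.
-/

set_option autoImplicit false

noncomputable section

open IsLocalRing GaloisRep FermatAgent.GaloisBasic

namespace FermatAgent.RT.Raise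

variable {𝒪 : Type} [CommRing 𝒪] [IsDomain 𝒪] [IsDiscreteValuationRing 𝒪]
  [IsAdicComplete (maximalIdeal 𝒪) 𝒪] [Finite (ResidueField 𝒪)]

/-- **Agreement with the base extends from traces.** -/
theorem compat_of_trace {D : DefProblem 𝒪} {half : 𝒪} (h2 : 2 * half = 1)
    (hspan : Submodule.span (ResidueField 𝒪) (Set.range D.rbar) = ⊤) {c : GQ} (hc : c * c = 1)
    (htc : (D.univMat c).trace = 0) {R₀ : Type} [CommRing R₀] [Algebra 𝒪 R₀] {M₀ : MatRep R₀}
    (π : D.UR →ₐ[𝒪] R₀) (hπ : ∀ x, (D.univMat x).map π = M₀ x) {r n s : ℕ}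
    (ρ₀ : R₀ →ₐ[𝒪] Matrix (Fin s) (Fin s) 𝒪)
    (f : D.UR →ₐ[𝒪] Matrix (Fin s) (Fin s) (LevelBase 𝒪 r n))
    (hb : ∀ x, (f (D.univMat x).trace).map (levelAug r n) =
      (ρ₀ (M₀ x).trace).map (algebraMap 𝒪 (𝒪 ⧸ maximalIdeal 𝒪 ^ n)))
    (x : D.UR) (i j : Fin s) (a : PatchBase 𝒪 r)
    (ha : Ideal.Quotient.mk (maximalIdeal (PatchBase 𝒪 r) ^ n) a = f x i j) :
    MvPowerSeries.constantCoeff a - ρ₀ (π x) i j ∈ maximalIdeal 𝒪 ^ n := by
  have := finite_quotient_maximalIdeal_pow (A := 𝒪) n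
  have : Finite (Matrix (Fin s) (Fin s) (𝒪 ⧸ maximalIdeal 𝒪 ^ n)) :=
    inferInstanceAs (Finite (Fin s → Fin s → _))
  have h := algHom_ext_of_trace D h2 hspan hc htc
    (E := Matrix (Fin s) (Fin s) (𝒪 ⧸ maximalIdeal 𝒪 ^ n)) ((levelAug r n).mapMatrix.comp f)
    ((Algebra.ofId 𝒪 (𝒪 ⧸ maximalIdeal 𝒪 ^ n)).mapMatrix.comp (ρ₀.comp π)) fun y => by
      simp only [AlgHom.comp_apply]
      rw [show π (D.univMat y).trace = (M₀ y).trace by
        rw [← hπ]; simp [Matrix.trace_fin_two]]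
      exact hb y
  exact (map_levelAug_iff (f x) (ρ₀ (π x))).mpr (AlgHom.congr_fun h x) i j a ha

/-- **Congruence of traces extends to the universal ring.** Two points on matrices over a level
with traces congruent modulo `ϖ` are congruent modulo `ϖ`. -/
theorem sub_mem_span_of_trace {D : DefProblem 𝒪} {ϖ half : 𝒪} (h2 : 2 * half = 1)
    (hspan : Submodule.span (ResidueField 𝒪) (Set.range D.rbar) = ⊤) {c : GQ} (hc : c * c = 1)
    (htc : (D.univMat c).trace = 0) {r n s : ℕ}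
    (f f' : D.UR →ₐ[𝒪] Matrix (Fin s) (Fin s) (LevelBase 𝒪 r n))
    (hcongr : ∀ x i j, f (D.univMat x).trace i j - f' (D.univMat x).trace i j ∈
      Ideal.span {algebraMap 𝒪 (LevelBase 𝒪 r n) ϖ}) (x : D.UR) (i j : Fin s) :
    f x i j - f' x i j ∈ Ideal.span {algebraMap 𝒪 (LevelBase 𝒪 r n) ϖ} := by
  have := finite_quotient_maximalIdeal_pow (A := PatchBase 𝒪 r) n
  let B := LevelBase 𝒪 r n ⧸ Ideal.span {algebraMap 𝒪 (LevelBase 𝒪 r n) ϖ}
  let mk : LevelBase 𝒪 r n →ₐ[𝒪] B := Ideal.Quotient.mkₐ 𝒪 _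
  have : Finite B := Finite.of_surjective _ Ideal.Quotient.mk_surjective
  have : Finite (Matrix (Fin s) (Fin s) B) := inferInstanceAs (Finite (Fin s → Fin s → B))
  have h := algHom_ext_of_trace D h2 hspan hc htc (E := Matrix (Fin s) (Fin s) B)
    (mk.mapMatrix.comp f) (mk.mapMatrix.comp f') fun y => by
      simp only [AlgHom.comp_apply]
      ext a b
      exact Ideal.Quotient.eq.mpr (hcongr y a b)
  exact Ideal.Quotient.eq.mp (congrFun (congrFun (AlgHom.congr_fun h x) i) j)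

variable {σ : Type} [Fintype σ] {ν : Type} [DecidableEq ν]
variable {R₀ : Type} [CommRing R₀] [IsLocalRing R₀] [Algebra 𝒪 R₀]
  [IsLocalHom (algebraMap 𝒪 R₀)]

/-- A representation of the base ring is a point of the deformation problem with dense entries. -/
structure BasePoint (D : DefProblem 𝒪) (M₀ : MatRep R₀) : Prop where
  residue_surjective : Function.Surjective (residue R₀ ∘ algebraMap 𝒪 R₀)
  continuous : MatContinuous R₀ M₀
  residual : HasResidual D.rbar M₀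
  normal : IsNormal D.nd M₀
  dense : ∀ (n : ℕ) (a : R₀), ∃ b ∈ Algebra.adjoin 𝒪 (Set.range fun x : EntryIdx =>
    M₀ x.1 x.2.1 x.2.2), a - b ∈ maximalIdeal R₀ ^ n
  cond : ∀ (n : ℕ) [IsLocalRing (R₀ ⧸ maximalIdeal R₀ ^ (n + 1))]
    (hc : MatContinuous _ (mapRep (Ideal.Quotient.mk (maximalIdeal R₀ ^ (n + 1))) M₀)),
    D.cond (toRep _ hc)

/-- The coordinates at the framed and raised sites in the universal ring of a deformation
problem, over given coordinates of the base ring. -/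
structure SiteCoords (D : DefProblem 𝒪) (M₀ : MatRep R₀) (ϖ : 𝒪) (d : σ → FrameSite 𝒪 GQ)
    (q : σ → ℕ) (z₀ : ν → Fin 3 → R₀) (g : ℕ) where
  /-- the coordinates at the raised sites -/
  z : ν → Fin 3 → D.UR
  z_mem : ∀ v i, z v i ∈ maximalIdeal D.UR
  π_z : ∀ π : D.UR →ₐ[𝒪] R₀, (∀ x, (D.univMat x).map π = M₀ x) → ∀ v i, π (z v i) = z₀ v i
  tangent : TangentBound D.univMat d z ϖ g
  det_frob : ∀ v, (D.univMat (d v).frob).det = q v
  det_inert : ∀ v, (D.univMat (d v).inert).det = 1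
  tame : ∀ v, D.univMat (d v).frob * D.univMat (d v).inert =
    D.univMat (d v).inert ^ q v * D.univMat (d v).frob

variable [IsNoetherianRing R₀] [IsAdicComplete (maximalIdeal R₀) R₀]

/-- The universal ring of the problem maps onto the base ring. -/
theorem BasePoint.exists_hom {D : DefProblem 𝒪} {M₀ : MatRep R₀} (h : BasePoint D M₀) :
    ∃ π : D.UR →ₐ[𝒪] R₀, (∀ x, (D.univMat x).map π = M₀ x) ∧
      IsLocalHom (π : D.UR →+* R₀) ∧ Function.Surjective π := by
  obtain ⟨π, hπ⟩ := exists_univHom D h.residue_surjective h.continuous h.residual h.normal h.cond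
  have := isLocalHom_univ D π hπ h.residual
  exact ⟨π, hπ, this, univHom_surjective D π hπ h.dense⟩

/-- **A raising level from intertwined Hecke sides.** -/
theorem nonempty_raiseLevel {ϖ half ζ ζ' : 𝒪} (h2 : 2 * half = 1) (D : DefProblem 𝒪)
    (hspan : Submodule.span (ResidueField 𝒪) (Set.range D.rbar) = ⊤)
    {c : GQ} (hc : c * c = 1) (htc : (D.univMat c).trace = 0)
    {M₀ : MatRep R₀} (h₀ : BasePoint D M₀) {d : σ → FrameSite 𝒪 GQ} {q : σ → ℕ}
    {d' : ν → CoordSite 𝒪} {z₀ : ν → Fin 3 → R₀} {g r n : ℕ} (Z : SiteCoords D M₀ ϖ d q z₀ g)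
    (u : Fin r → D.UR)
    (hπu : ∀ π : D.UR →ₐ[𝒪] R₀, (∀ x, (D.univMat x).map π = M₀ x) → ∀ j, π (u j) = 0)
    {rk : Finset ν → ℕ} (ρ₀ : ∀ A, R₀ →ₐ[𝒪] Matrix (Fin (rk A)) (Fin (rk A)) 𝒪)
    {rkK : Finset ν → ν → ℕ}
    (ρK : ∀ A v, R₀ →ₐ[𝒪] Matrix (Fin (rkK A v)) (Fin (rkK A v)) 𝒪)
    (S : ∀ A v, v ∉ A → BaseStep (ρ₀ A) (ρ₀ (insert v A)) (rkK A v))
    (hρK : ∀ A v (h : v ∉ A), ρK A v = (S A v h).ρK)
    (tau : Finset ν → ν → MvPowerSeries (Fin 3) 𝒪)
    (H : ∀ A, HeckeSide D (rk A) (LevelBase 𝒪 r n)) (Hχ : HeckeSide D (rk ∅) (LevelBase 𝒪 r n))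
    (hu : ∀ A f, (H A).Carries f → ∀ j, f (u j) = algebraMap _ _
      (Ideal.Quotient.mk (maximalIdeal (PatchBase 𝒪 r) ^ n) (MvPowerSeries.X j)))
    (huχ : ∀ f, Hχ.Carries f → ∀ j, f (u j) = algebraMap _ _
      (Ideal.Quotient.mk (maximalIdeal (PatchBase 𝒪 r) ^ n) (MvPowerSeries.X j)))
    (hsite : ∀ A v, (H A).ψ ((H A).td.t (d v).inert) = 2)
    (hsiteχ : ∀ v, Hχ.ψ (Hχ.td.t (d v).inert) = algebraMap 𝒪 _ (ζ + ζ'))
    (hcongr : ∀ x i j, (H ∅).ψ ((H ∅).td.t x) i j - Hχ.ψ (Hχ.td.t x) i j ∈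
      Ideal.span {algebraMap 𝒪 (LevelBase 𝒪 r n) ϖ})
    (hbase : ∀ A x, ((H A).ψ ((H A).td.t x)).map (levelAug r n) =
      (ρ₀ A (M₀ x).trace).map (algebraMap 𝒪 (𝒪 ⧸ maximalIdeal 𝒪 ^ n)))
    (heqs : ∀ A v f, (H A).Carries f → ∀ e ∈ (d' v).eqs,
      f (evalAdic (R := 𝒪) (maximalIdeal D.UR) (Z.z v) (Z.z_mem v) e) = 0)
    (hunr : ∀ v f, (H ∅).Carries f → f (Z.z v 1) = 0 ∧ f (Z.z v 2) = 0)
    (hunrχ : ∀ v f, Hχ.Carries f → f (Z.z v 1) = 0 ∧ f (Z.z v 2) = 0)
    (J : ∀ A v, v ∉ A → Matrix (Fin (rk (insert v A))) (Fin (rk A)) (LevelBase 𝒪 r n))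
    (Tr : ∀ A v, v ∉ A → Matrix (Fin (rk A)) (Fin (rk (insert v A))) (LevelBase 𝒪 r n))
    (hJ : ∀ A v h g, J A v h * (H A).ψ ((H A).td.t g) =
      (H (insert v A)).ψ ((H (insert v A)).td.t g) * J A v h)
    (hTr : ∀ A v h g, Tr A v h * (H (insert v A)).ψ ((H (insert v A)).td.t g) =
      (H A).ψ ((H A).td.t g) * Tr A v h)
    (hJaug : ∀ A v h, (J A v h).map (levelAug r n) =
      (S A v h).J.map (algebraMap 𝒪 (𝒪 ⧸ maximalIdeal 𝒪 ^ n)))
    (hTraug : ∀ A v h, (Tr A v h).map (levelAug r n) =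
      (S A v h).Tr.map (algebraMap 𝒪 (𝒪 ⧸ maximalIdeal 𝒪 ^ n)))
    (hTrJ : ∀ A v h f, (H A).Carries f →
      Tr A v h * J A v h =
        f (evalAdic (R := 𝒪) (maximalIdeal D.UR) (Z.z v) (Z.z_mem v) (tau A v))) :
    Nonempty (RaiseLevel ϖ half ζ ζ' d q d' g r M₀ z₀ ρ₀ ρK tau n) := by
  classical
  obtain ⟨π, hπ, hπloc, hπs⟩ := h₀.exists_hom
  choose f hf using fun A => (H A).exists_hom h2 hspan
  obtain ⟨fχ, hfχ⟩ := Hχ.exists_hom h2 hspan
  have := finite_quotient_maximalIdeal_pow (A := PatchBase 𝒪 r) n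
  have hJf : ∀ A v h x, J A v h * f A x = f (insert v A) x * J A v h := fun A v h =>
    comm_of_trace h2 hspan hc htc _ _ _ fun g => by rw [hf, hf]; exact hJ A v h g
  have hTf : ∀ A v h x, Tr A v h * f (insert v A) x = f A x * Tr A v h := fun A v h =>
    comm_of_trace h2 hspan hc htc _ _ _ fun g => by rw [hf, hf]; exact hTr A v h g
  have hcomp : ∀ A (x : D.UR) i j (a : PatchBase 𝒪 r),
      Ideal.Quotient.mk (maximalIdeal (PatchBase 𝒪 r) ^ n) a = f A x i j →
        MvPowerSeries.constantCoeff a - ρ₀ A (π x) i j ∈ maximalIdeal 𝒪 ^ n := fun A =>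
    compat_of_trace h2 hspan hc htc π hπ (ρ₀ A) (f A) fun x => by rw [hf]; exact hbase A x
  let L : ∀ A v (h : v ∉ A), StepLift (S A v h) (J A v h) (Tr A v h) := fun A v h =>
    (nonempty_stepLift (S A v h) (hJaug A v h) (hTraug A v h)).some
  refine ⟨{
    R := D.UR
    M := D.univMat
    π := π
    π_surjective := hπs
    π_M := hπ
    residue_surjective := D.residue_surjective_UR
    det_frob := Z.det_frob
    det_inert := Z.det_inert
    tame := Z.tame
    z := Z.z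
    z_mem := Z.z_mem
    π_z := Z.π_z π hπ
    tangent := Z.tangent
    u := u
    π_u := hπu π hπ
    ψ := f
    ψχ := fχ
    ψK := fun A v h => (L A v h).ψK (hJf A v h)
    ψ_u := fun A => hu A (f A) (hf A)
    ψχ_u := huχ fχ hfχ
    congr := sub_mem_span_of_trace h2 hspan hc htc (f ∅) fχ fun x i j => by
      rw [hf, hfχ]; exact hcongr x i j
    compat := hcomp
    compatK := fun A v h x i j a ha => by
      rw [hρK A v h]
      exact (L A v h).compat (hJf A v h) π (hcomp (insert v A)) x i j a ha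
    ψ_trace := fun A v => by rw [map_sub, map_ofNat, hf, hsite, sub_self]
    ψχ_trace := fun v => by rw [map_sub, AlgHom.commutes, hfχ, hsiteχ, sub_self]
    ψ_eqs := fun A v => heqs A v (f A) (hf A)
    ψ_unram := fun v => hunr v (f ∅) (hf ∅)
    ψχ_unram := fun v => hunrχ v fχ hfχ
    J := fun A v => if h : v ∈ A then 0 else J A v h
    Lam := fun A v => if h : v ∈ A then 0 else (L A v h).Lam
    Tr := fun A v => if h : v ∈ A then 0 else Tr A v h
    Sg := fun A v => if h : v ∈ A then 0 else (L A v h).Sg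
    Pr := fun A v => if h : v ∈ A then 0 else (L A v h).Pr
    Sec := fun A v => if h : v ∈ A then 0 else (L A v h).Sec
    Tr_comm := fun A v h x => by simp only [dif_neg h]; exact hTf A v h x
    Pr_comm := fun A v h x => by simp only [dif_neg h]; exact (L A v h).Pr_comm (hJf A v h) x
    Tr_Sg := fun A v h => by simp only [dif_neg h]; exact (L A v h).Tr_Sg
    Pr_Sec := fun A v h => by simp only [dif_neg h]; exact (L A v h).Pr_Sec
    split := fun A v h => by simp only [dif_neg h]; exact (L A v h).split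
    Tr_J := fun A v h => by simp only [dif_neg h]; exact hTrJ A v h (f A) (hf A) }⟩

section Lower

variable {G : Type} [Monoid G] {ϖ half ζ ζ' : 𝒪} {d : σ → FrameSite 𝒪 G} {q : σ → ℕ}
  {d' : ν → CoordSite 𝒪} {g r : ℕ} {M₀ : G →* Matrix (Fin 2) (Fin 2) R₀} {z₀ : ν → Fin 3 → R₀}
  {rk : Finset ν → ℕ} {ρ₀ : ∀ A, R₀ →ₐ[𝒪] Matrix (Fin (rk A)) (Fin (rk A)) 𝒪}
  {rkK : Finset ν → ν → ℕ} {ρK : ∀ A v, R₀ →ₐ[𝒪] Matrix (Fin (rkK A v)) (Fin (rkK A v)) 𝒪}
  {tau : Finset ν → ν → MvPowerSeries (Fin 3) 𝒪} {n : ℕ}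

omit [IsLocalHom (algebraMap 𝒪 R₀)] [IsNoetherianRing R₀] [IsAdicComplete (maximalIdeal R₀) R₀]
    [IsAdicComplete (maximalIdeal 𝒪) 𝒪] [Finite (ResidueField 𝒪)] in
/-- A level of depth `n + 1` gives one of depth `n`. -/
theorem RaiseLevel.nonempty_lower
    (D : RaiseLevel ϖ half ζ ζ' d q d' g r M₀ z₀ ρ₀ ρK tau (n + 1)) :
    Nonempty (RaiseLevel ϖ half ζ ζ' d q d' g r M₀ z₀ ρ₀ ρK tau n) := by
  let φ : LevelBase 𝒪 r (n + 1) →ₐ[𝒪] LevelBase 𝒪 r n :=
    Ideal.Quotient.factorₐ 𝒪 (Ideal.pow_le_pow_right n.le_succ)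
  have hscal : ∀ {s : ℕ} x, φ.mapMatrix (algebraMap (LevelBase 𝒪 r (n + 1))
      (Matrix (Fin s) (Fin s) _) (Ideal.Quotient.mk _ x)) =
      algebraMap _ _ (Ideal.Quotient.mk (maximalIdeal (PatchBase 𝒪 r) ^ n) x) := fun x => by
    ext a b
    simp only [AlgHom.mapMatrix_apply, Matrix.map_apply, Matrix.algebraMap_matrix_apply,
      Algebra.algebraMap_self, RingHom.id_apply]
    split_ifs
    · rfl
    · exact map_zero φ
  have hlow : ∀ {s : ℕ} {ρ : R₀ →ₐ[𝒪] Matrix (Fin s) (Fin s) 𝒪}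
      {ψ : D.R →ₐ[𝒪] Matrix (Fin s) (Fin s) (LevelBase 𝒪 r (n + 1))},
      (∀ (x : D.R) i j (a : PatchBase 𝒪 r),
        Ideal.Quotient.mk (maximalIdeal (PatchBase 𝒪 r) ^ (n + 1)) a = ψ x i j →
          MvPowerSeries.constantCoeff a - ρ (D.π x) i j ∈ maximalIdeal 𝒪 ^ (n + 1)) →
      ∀ (x : D.R) i j (a : PatchBase 𝒪 r),
        Ideal.Quotient.mk (maximalIdeal (PatchBase 𝒪 r) ^ n) a = φ.mapMatrix.comp ψ x i j →
          MvPowerSeries.constantCoeff a - ρ (D.π x) i j ∈ maximalIdeal 𝒪 ^ n := by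
    intro s ρ ψ hψ x i j a ha
    obtain ⟨b, hb⟩ := Ideal.Quotient.mk_surjective (ψ x i j)
    have h1 := hψ x i j b hb
    have h2 : a - b ∈ maximalIdeal (PatchBase 𝒪 r) ^ n := by
      refine Ideal.Quotient.eq.mp (ha.trans ?_)
      rw [AlgHom.comp_apply, AlgHom.mapMatrix_apply, Matrix.map_apply, ← hb]
      rfl
    have h3 := pow_le_coeffFiltration n h2 0
    simp only [map_zero, Nat.sub_zero, MvPowerSeries.coeff_zero_eq_constantCoeff_apply,
      map_sub] at h3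
    simpa using add_mem h3 (Ideal.pow_le_pow_right n.le_succ h1)
  exact ⟨{
    R := D.R
    M := D.M
    π := D.π
    π_surjective := D.π_surjective
    π_M := D.π_M
    residue_surjective := D.residue_surjective
    det_frob := D.det_frob
    det_inert := D.det_inert
    tame := D.tame
    z := D.z
    z_mem := D.z_mem
    π_z := D.π_z
    tangent := D.tangent
    u := D.u
    π_u := D.π_u
    ψ := fun A => φ.mapMatrix.comp (D.ψ A)
    ψχ := φ.mapMatrix.comp D.ψχ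
    ψK := fun A v h => φ.mapMatrix.comp (D.ψK A v h)
    ψ_u := fun A j => by rw [AlgHom.comp_apply, D.ψ_u, hscal]
    ψχ_u := fun j => by rw [AlgHom.comp_apply, D.ψχ_u, hscal]
    congr := fun x i j => by
      obtain ⟨c, hc⟩ := Ideal.mem_span_singleton'.mp (D.congr x i j)
      simp only [AlgHom.comp_apply, AlgHom.mapMatrix_apply, Matrix.map_apply, ← map_sub, ← hc,
        map_mul, AlgHom.commutes]
      exact Ideal.mul_mem_left _ _ (Ideal.subset_span rfl)
    compat := fun A => hlow (D.compat A)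
    compatK := fun A v h => hlow (D.compatK A v h)
    ψ_trace := fun A v => by rw [AlgHom.comp_apply, D.ψ_trace, map_zero]
    ψχ_trace := fun v => by rw [AlgHom.comp_apply, D.ψχ_trace, map_zero]
    ψ_eqs := fun A v e he => by rw [AlgHom.comp_apply, D.ψ_eqs A v e he, map_zero]
    ψ_unram := fun v => ⟨by rw [AlgHom.comp_apply, (D.ψ_unram v).1, map_zero],
      by rw [AlgHom.comp_apply, (D.ψ_unram v).2, map_zero]⟩
    ψχ_unram := fun v => ⟨by rw [AlgHom.comp_apply, (D.ψχ_unram v).1, map_zero],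
      by rw [AlgHom.comp_apply, (D.ψχ_unram v).2, map_zero]⟩
    J := fun A v => (D.J A v).map φ
    Lam := fun A v => (D.Lam A v).map φ
    Tr := fun A v => (D.Tr A v).map φ
    Sg := fun A v => (D.Sg A v).map φ
    Pr := fun A v => (D.Pr A v).map φ
    Sec := fun A v => (D.Sec A v).map φ
    Tr_comm := fun A v h x => by
      simp only [AlgHom.comp_apply, AlgHom.mapMatrix_apply, ← Matrix.map_mul, D.Tr_comm A v h x]
    Pr_comm := fun A v h x => by
      simp only [AlgHom.comp_apply, AlgHom.mapMatrix_apply, ← Matrix.map_mul, D.Pr_comm A v h x]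
    Tr_Sg := fun A v h => by
      rw [← Matrix.map_mul, D.Tr_Sg A v h, Matrix.map_one _ (map_zero φ) (map_one φ)]
    Pr_Sec := fun A v h => by
      rw [← Matrix.map_mul, D.Pr_Sec A v h, Matrix.map_one _ (map_zero φ) (map_one φ)]
    split := fun A v h => by
      rw [← Matrix.map_mul, ← Matrix.map_mul, ← Matrix.map_add _ (map_add φ), D.split A v h,
        Matrix.map_one _ (map_zero φ) (map_one φ)]
    Tr_J := fun A v h => by
      rw [← Matrix.map_mul, D.Tr_J A v h]; rfl }⟩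

end Lower

end FermatAgent.RT.Raise
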