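import Mathlib
import Fermat.Agent.RT.Tower.Build
import Fermat.Agent.RT.Intertwine.Diamond

/-!
# Raising levels from diamond data

One diamond datum for every set of raised sites, over one group ring, and intertwiners between
them specialise to a raising level.
-/

set_option autoImplicit false

noncomputable section

open IsLocalRing GaloisRep FermatAgent.GaloisBasic

namespace FermatAgent.RT.DiamondDatum

variable {𝒪 : Type} [CommRing 𝒪] [IsDomain 𝒪] [IsDiscreteValuationRing 𝒪]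
  [IsAdicComplete (maximalIdeal 𝒪) 𝒪] [Finite (ResidueField 𝒪)] [CharZero 𝒪]
variable {κ : Type} [Fintype κ] [DecidableEq κ] {m : κ → ℕ} [∀ i, NeZero (m i)]
variable {D : DefProblem 𝒪} {p : ℕ} [IsLocalRing (MonoidAlgebra 𝒪 (CycProd m))]

section Level

variable {σ : Type} [Fintype σ] [DecidableEq σ] {ν : Type} [Fintype ν] [DecidableEq ν]
variable {R₀ : Type} [CommRing R₀] [IsLocalRing R₀] [Algebra 𝒪 R₀] [IsNoetherianRing R₀]
  [IsAdicComplete (maximalIdeal R₀) R₀] [IsLocalHom (algebraMap 𝒪 R₀)]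
variable {rk : Finset ν → ℕ} {H : ∀ A, DiamondDatum D m p (rk A)} (Ax : ∀ A, (H A).AuxSet)

/-- The conditions of a side transfer to an equal specialisation. -/
lemma SideCond.condAt {s : ℕ} {H' : DiamondDatum D m p s} {A : H'.AuxSet} {r n : ℕ}
    {e : Fin r ≃ {j // j ∈ A.sel}} {hdepth : ∀ j : {j // j ∈ A.sel}, p ^ (n + 1) ≤ m j.1}
    {z : κ → 𝒪} {hz : ∀ i, i ∉ A.sel → z i ^ m i = 1} (h : SideCond A e hdepth z hz)
    {φ : MonoidAlgebra 𝒪 (CycProd m) →ₐ[𝒪]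
      PatchBase 𝒪 r ⧸ maximalIdeal (PatchBase 𝒪 r) ^ (n + 1)}
    (hφ : spec A (e := e) hdepth z hz = φ) : CondAt A φ := hφ ▸ h

/-- The unit specialisation. -/
abbrev specOne {s : ℕ} {H' : DiamondDatum D m p s} (A : H'.AuxSet) {r n : ℕ}
    (e : Fin r ≃ {j // j ∈ A.sel}) (hdepth : ∀ j : {j // j ∈ A.sel}, p ^ (n + 1) ≤ m j.1) :
    MonoidAlgebra 𝒪 (CycProd m) →ₐ[𝒪] Raise.LevelBase 𝒪 r (n + 1) :=
  spec A (e := e) hdepth (fun _ => 1) fun _ _ => one_pow _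

section Spec

omit [IsAdicComplete (maximalIdeal 𝒪) 𝒪] [Finite (ResidueField 𝒪)] [CharZero 𝒪] [Fintype κ]
  [DecidableEq κ] [∀ i, NeZero (m i)] [IsLocalRing (MonoidAlgebra 𝒪 (CycProd m))] in
/-- A scalar matrix maps to a scalar matrix. -/
private lemma map_algebraMap_scalar {r n s : ℕ}
    (φ : MonoidAlgebra 𝒪 (CycProd m) →ₐ[𝒪] Raise.LevelBase 𝒪 r (n + 1))
    (y : MonoidAlgebra 𝒪 (CycProd m)) :
    (algebraMap (MonoidAlgebra 𝒪 (CycProd m))
      (Matrix (Fin s) (Fin s) (MonoidAlgebra 𝒪 (CycProd m))) y).map φ = algebraMap _ _ (φ y) := by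
  rw [Matrix.algebraMap_eq_diagonal, Matrix.diagonal_map (map_zero φ)]
  rfl

variable {s₀ : ℕ} {H₀ : DiamondDatum D m p s₀} (A₀ : H₀.AuxSet) {r n : ℕ}
  (e : Fin r ≃ {j // j ∈ A₀.sel}) (hdepth : ∀ j : {j // j ∈ A₀.sel}, p ^ (n + 1) ≤ m j.1)

omit [IsAdicComplete (maximalIdeal 𝒪) 𝒪] [Finite (ResidueField 𝒪)] [CharZero 𝒪] in
/-- The unit specialisation followed by the augmentation is the augmentation. -/
lemma levelAug_specOne {a b : Type} (X : Matrix a b (MonoidAlgebra 𝒪 (CycProd m))) :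
    (X.map (specOne A₀ e hdepth)).map (Raise.levelAug r (n + 1)) =
      (X.map (GroupRing.aug 𝒪 (CycProd m))).map
        (algebraMap 𝒪 (𝒪 ⧸ maximalIdeal 𝒪 ^ (n + 1))) := by
  have haug : (Raise.levelAug r (n + 1)).comp (specOne A₀ e hdepth) =
      (Algebra.ofId 𝒪 (𝒪 ⧸ maximalIdeal 𝒪 ^ (n + 1))).comp (GroupRing.aug 𝒪 (CycProd m)) := by
    refine cycAlgHom_ext fun b => ?_
    rw [AlgHom.comp_apply, AlgHom.comp_apply, spec_cycX, specVal,
      show GroupRing.aug 𝒪 (CycProd m) (cycX 𝒪 b) = 1 from GroupRing.aug_of _, map_one]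
    split_ifs with h
    · rw [map_add, map_one, Raise.levelAug_mk, MvPowerSeries.constantCoeff_X, map_zero, add_zero,
        map_one]
    · rw [map_one, map_one]
  exact Matrix.ext fun i j => AlgHom.congr_fun haug (X i j)

/-- The trace of inertia at a site outside the selection, after a specialisation. -/
private lemma sideAction_trace_site {w : κ → 𝒪} (hw : ∀ i, i ∉ A₀.sel → w i ^ m i = 1) {s : ℕ}
    {H' : DiamondDatum D m p s} (A : H'.AuxSet) {i : κ} (hi₀ : i ∉ A₀.sel) (hi : i ∉ A.sel)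
    {x : H'.T₀}
    (hx : H'.Φ x = algebraMap (MonoidAlgebra 𝒪 (CycProd m))
      (Matrix (Fin s) (Fin s) (MonoidAlgebra 𝒪 (CycProd m))) (cycX 𝒪 i + cycXinv 𝒪 i))
    {ζ' : 𝒪} (hζ : w i * ζ' = 1) :
    (sideAction A (spec A₀ (e := e) hdepth w hw)).Φ x = algebraMap 𝒪 _ (w i + ζ') := by
  rw [sideAction_Φ, newPhi_trace_of_notMem A hi hx, map_algebraMap_scalar]
  rw [map_add, spec_cycX, specVal, dif_neg hi₀, spec_cycXinv A₀ hdepth hw hi₀ hζ, ← map_add,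
    ← IsScalarTower.algebraMap_apply]

omit [IsAdicComplete (maximalIdeal 𝒪) 𝒪] [Finite (ResidueField 𝒪)] [CharZero 𝒪] in
/-- The two specialisations agree modulo `ϖ`. -/
private lemma specOne_sub_spec_mem {ϖ : 𝒪} {w : κ → 𝒪} (hw : ∀ i, i ∉ A₀.sel → w i ^ m i = 1)
    (hwϖ : ∀ i, i ∉ A₀.sel → ϖ ∣ w i - 1) (y : MonoidAlgebra 𝒪 (CycProd m)) :
    specOne A₀ e hdepth y - spec A₀ (e := e) hdepth w hw y ∈
      Ideal.span {algebraMap 𝒪 (Raise.LevelBase 𝒪 r (n + 1)) ϖ} := by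
  refine Ideal.Quotient.eq.mp ?_
  refine AlgHom.congr_fun (φ₁ := (Ideal.Quotient.mkₐ 𝒪 _).comp (specOne A₀ e hdepth))
    (φ₂ := (Ideal.Quotient.mkₐ 𝒪 _).comp (spec A₀ (e := e) hdepth w hw))
    (cycAlgHom_ext fun a => ?_) _
  rw [AlgHom.comp_apply, AlgHom.comp_apply, spec_cycX, spec_cycX, specVal, specVal]
  split_ifs with h
  · rfl
  · refine Ideal.Quotient.eq.mpr ?_
    obtain ⟨c', hc'⟩ := hwϖ a h
    rw [Ideal.mem_span_singleton, ← map_sub]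
    exact map_dvd _ ⟨-c', by linear_combination (-1 : 𝒪) * hc'⟩

end Spec

/-- Sites outside a selection, with roots of unity congruent to one modulo `ϖ` which are `ζ` at
the sites. -/
structure SiteWeights (sel : Finset κ) (m : κ → ℕ) (σ : Type) (ϖ ζ : 𝒪) where
  /-- the index of a site -/
  site : σ → κ
  site_notMem : ∀ v, site v ∉ sel
  /-- the roots of unity -/
  w : κ → 𝒪
  w_pow : ∀ i, i ∉ sel → w i ^ m i = 1
  w_dvd : ∀ i, i ∉ sel → ϖ ∣ w i - 1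
  w_site : ∀ v, w (site v) = ζ

/-- The conditions on the sides of one depth, specialised along `φ` and, twisted at the framed
sites, along `φχ`. -/
structure LevelSides {r n : ℕ}
    (φ φχ : MonoidAlgebra 𝒪 (CycProd m) →ₐ[𝒪] Raise.LevelBase 𝒪 r (n + 1))
    (d' : ν → Raise.CoordSite 𝒪) (z : ν → Fin 3 → D.UR)
    (hz : ∀ v i, z v i ∈ maximalIdeal D.UR) : Prop where
  side : ∀ A, CondAt (Ax A) φ
  sideχ : CondAt (Ax ∅) φχ
  eqs : ∀ A v f, OnSide (Ax A) φ f → ∀ x ∈ (d' v).eqs,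
    f (evalAdic (R := 𝒪) (maximalIdeal D.UR) (z v) (hz v) x) = 0
  unram : ∀ v f, OnSide (Ax ∅) φ f → f (z v 1) = 0 ∧ f (z v 2) = 0
  unramχ : ∀ v f, OnSide (Ax ∅) φχ f → f (z v 1) = 0 ∧ f (z v 2) = 0

/-- An element of the Hecke algebra is the value of a series at the coordinates of a site on every
map of the universal ring on a side. -/
abbrev IsValueOn {s r n : ℕ} {H' : DiamondDatum D m p s} (A : H'.AuxSet)
    (φ : MonoidAlgebra 𝒪 (CycProd m) →ₐ[𝒪] Raise.LevelBase 𝒪 r (n + 1)) (z : Fin 3 → D.UR)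
    (hz : ∀ i, z i ∈ maximalIdeal D.UR) (τ : MvPowerSeries (Fin 3) 𝒪) (t : H'.act.Img) : Prop :=
  ∀ f, OnSide A φ f →
    f (evalAdic (R := 𝒪) (maximalIdeal D.UR) z hz τ) = (newPhi A t).map φ

omit [DecidableEq σ] [Fintype ν] in
/-- **A raising level from diamond data.** -/
theorem nonempty_raiseLevel_of_datum {ϖ half ζ ζ' : 𝒪} (h2 : 2 * half = 1) (hζζ' : ζ * ζ' = 1)
    {c : GQ} (hc : c * c = 1) (htc : (D.univMat c).trace = 0)
    {M₀ : MatRep R₀} (h₀ : Raise.BasePoint D M₀) (hunr₀ : ∀ j, M₀ ((Ax ∅).aux j).τ = 1)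
    {d : σ → FrameSite 𝒪 GQ} {q : σ → ℕ} {d' : ν → Raise.CoordSite 𝒪} {z₀ : ν → Fin 3 → R₀}
    {g r n : ℕ} (Z : Raise.SiteCoords D M₀ ϖ d q z₀ g)
    (ρ₀ : ∀ A, R₀ →ₐ[𝒪] Matrix (Fin (rk A)) (Fin (rk A)) 𝒪)
    {rkK : Finset ν → ν → ℕ}
    (ρK : ∀ A v, R₀ →ₐ[𝒪] Matrix (Fin (rkK A v)) (Fin (rkK A v)) 𝒪)
    (St : ∀ A v, v ∉ A → Raise.BaseStep (ρ₀ A) (ρ₀ (insert v A)) (rkK A v))
    (hρK : ∀ A v (h : v ∉ A), ρK A v = (St A v h).ρK)
    (tau : Finset ν → ν → MvPowerSeries (Fin 3) 𝒪)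
    (W : SiteWeights (Ax ∅).sel m σ ϖ ζ)
    (hsite_tr : ∀ A v, (H A).Φ ((H A).td.t (d v).inert) =
      algebraMap (MonoidAlgebra 𝒪 (CycProd m))
        (Matrix (Fin (rk A)) (Fin (rk A)) (MonoidAlgebra 𝒪 (CycProd m)))
        (cycX 𝒪 (W.site v) + cycXinv 𝒪 (W.site v)))
    (hsel : ∀ A, (Ax A).sel = (Ax ∅).sel)
    (haux : ∀ A i (h₁ : i ∈ (Ax A).sel) (h₂ : i ∈ (Ax ∅).sel),
      (Ax A).aux ⟨i, h₁⟩ = (Ax ∅).aux ⟨i, h₂⟩)
    (e : Fin r ≃ {j // j ∈ (Ax ∅).sel})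
    (hdepth : ∀ j : {j // j ∈ (Ax ∅).sel}, p ^ (n + 1) ≤ m j.1)
    (hsides : LevelSides Ax (specOne (Ax ∅) e hdepth) (spec (Ax ∅) (e := e) hdepth W.w W.w_pow)
      d' Z.z Z.z_mem)
    (hbase : ∀ A x, ((H A).Φ ((H A).td.t x)).map (GroupRing.aug 𝒪 (CycProd m)) =
      ρ₀ A (M₀ x).trace)
    (J : ∀ A v, v ∉ A → Matrix (Fin (rk (insert v A))) (Fin (rk A)) (MonoidAlgebra 𝒪 (CycProd m)))
    (Tr : ∀ A v, v ∉ A →
      Matrix (Fin (rk A)) (Fin (rk (insert v A))) (MonoidAlgebra 𝒪 (CycProd m)))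
    (hJ : ∀ A v h, Intertwines (H A) (H (insert v A)) (J A v h))
    (hTr : ∀ A v h, Intertwines (H (insert v A)) (H A) (Tr A v h))
    (hJaug : ∀ A v h, ((J A v h).map (GroupRing.aug 𝒪 (CycProd m))).map
        (algebraMap 𝒪 (𝒪 ⧸ maximalIdeal 𝒪 ^ (n + 1))) =
      (St A v h).J.map (algebraMap 𝒪 (𝒪 ⧸ maximalIdeal 𝒪 ^ (n + 1))))
    (hTraug : ∀ A v h, ((Tr A v h).map (GroupRing.aug 𝒪 (CycProd m))).map
        (algebraMap 𝒪 (𝒪 ⧸ maximalIdeal 𝒪 ^ (n + 1))) =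
      (St A v h).Tr.map (algebraMap 𝒪 (𝒪 ⧸ maximalIdeal 𝒪 ^ (n + 1))))
    (hTrJ : ∀ A v h, ∃ t : (H A).act.Img, Tr A v h * J A v h = (H A).act.incl t ∧
      IsValueOn (Ax A) (specOne (Ax ∅) e hdepth) (Z.z v) (Z.z_mem v) (tau A v) t) :
    Nonempty (Raise.RaiseLevel ϖ half ζ ζ' d q d' g r M₀ z₀ ρ₀ ρK tau (n + 1)) := by
  classical
  set φ₁ := specOne (Ax ∅) e hdepth with hφ₁
  set φχ := spec (Ax ∅) (e := e) hdepth W.w W.w_pow with hφχ
  have hk := p_pow_eq_zero (H ∅) r n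
  have hsite : ∀ A v, W.site v ∉ (Ax A).sel := fun A v => by
    rw [hsel A]; exact W.site_notMem v
  -- equal selections and auxiliary primes
  have hs' : ∀ A v, (Ax (insert v A)).sel = (Ax A).sel := fun A v =>
    (hsel _).trans (hsel A).symm
  have ha' : ∀ A v i (h₁ : i ∈ (Ax A).sel) (h₂ : i ∈ (Ax (insert v A)).sel),
      (Ax A).aux ⟨i, h₁⟩ = (Ax (insert v A)).aux ⟨i, h₂⟩ := fun A v i h₁ h₂ =>
    (haux A i h₁ (hsel A ▸ h₁)).trans (haux (insert v A) i h₂ (hsel A ▸ h₁)).symm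
  let Jn : ∀ A v, v ∉ A → Matrix (Fin (rk (insert v A))) (Fin (rk A))
      (Raise.LevelBase 𝒪 r (n + 1)) :=
    fun A v h => ((hJ A v h).new (Ax A) (Ax (insert v A)) (hs' A v) (ha' A v)).map φ₁
  let Tn : ∀ A v, v ∉ A → Matrix (Fin (rk A)) (Fin (rk (insert v A)))
      (Raise.LevelBase 𝒪 r (n + 1)) :=
    fun A v h => ((hTr A v h).new (Ax (insert v A)) (Ax A) (hs' A v).symm
      fun i h₁ h₂ => (ha' A v i h₂ h₁).symm).map φ₁
  refine Raise.nonempty_raiseLevel h2 D (H ∅).span hc htc h₀ Z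
    (fun j => univEigen ((Ax ∅).aux (e j)) - 1)
    (fun π hπ j => by rw [map_sub, map_one, map_univEigen_eq_one _ π M₀ hπ (hunr₀ _), sub_self])
    ρ₀ ρK St hρK tau (fun A => side (Ax A) φ₁ hk (hsides.side A))
    (side (Ax ∅) φχ hk hsides.sideχ)
    ?_ ?_ ?_ ?_ ?_ ?_ hsides.eqs hsides.unram hsides.unramχ Jn Tn ?_ ?_ ?_ ?_ ?_
  · intro A f hf j
    have hj : (e j).1 ∈ (Ax A).sel := (hsel A).symm ▸ (e j).2
    rw [map_sub, map_one, ← Subtype.coe_eta (e j) (e j).2, ← haux A (e j).1 hj (e j).2,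
      univEigen_image (Ax A) hc htc φ₁ hk (hsides.side A) ⟨(e j).1, hj⟩ f hf, spec_cycX_sel,
      map_add, map_one, add_sub_cancel_left]
  · intro f hf j
    rw [map_sub, map_one, univEigen_image (Ax ∅) hc htc φχ hk hsides.sideχ (e j) f hf,
      spec_cycX_sel, map_add, map_one, add_sub_cancel_left]
  · intro A v
    refine (sideAction_trace_site (Ax ∅) e hdepth (fun _ _ => one_pow _) (Ax A) (hsite ∅ v)
      (hsite A v) (hsite_tr A v) (one_mul (1 : 𝒪))).trans ?_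
    rw [one_add_one_eq_two, map_ofNat]
  · intro v
    rw [← W.w_site v]
    exact sideAction_trace_site (Ax ∅) e hdepth W.w_pow (Ax ∅) (hsite ∅ v) (hsite ∅ v)
      (hsite_tr ∅ v) (by rw [W.w_site]; exact hζζ')
  · exact fun x i j => specOne_sub_spec_mem (Ax ∅) e hdepth W.w_pow W.w_dvd _
  · intro A x
    show ((sideAction (Ax A) φ₁).Φ ((H A).td.t x)).map (Raise.levelAug r (n + 1)) = _
    rw [sideAction_Φ, levelAug_specOne, newPhi_map_aug, incl_mkT, hbase]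
  · intro A v h g
    exact (hJ A v h).side_comm (Ax A) (Ax (insert v A)) (hs' A v) (ha' A v) φ₁ g
  · intro A v h g
    exact (hTr A v h).side_comm (Ax (insert v A)) (Ax A) (hs' A v).symm
      (fun i h₁ h₂ => (ha' A v i h₂ h₁).symm) φ₁ g
  · intro A v h
    rw [levelAug_specOne]
    refine Eq.trans (congrArg (fun X : Matrix _ _ 𝒪 => X.map _) ?_) (hJaug A v h)
    exact (hJ A v h).new_map_aug (Ax A) (Ax (insert v A)) (hs' A v) (ha' A v)
  · intro A v h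
    rw [levelAug_specOne]
    refine Eq.trans (congrArg (fun X : Matrix _ _ 𝒪 => X.map _) ?_) (hTraug A v h)
    exact (hTr A v h).new_map_aug (Ax (insert v A)) (Ax A) (hs' A v).symm
      fun i h₁ h₂ => (ha' A v i h₂ h₁).symm
  · intro A v h f hf
    obtain ⟨t, ht, hft⟩ := hTrJ A v h
    rw [hft f hf, ← (hJ A v h).new_mul_new (Ax A) (Ax (insert v A)) (hs' A v) (ha' A v) (hTr A v h)
      ht]
    exact Matrix.map_mul.symm

end Level

end FermatAgent.RT.DiamondDatum
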