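import Mathlib
import Fermat.Agent.RT.Cond.Side
import Fermat.Agent.RT.Raise.TameSite

/-!
# Tame raised sites on specialised sides

At a prime `q ≢ 1` the equations, the unramified coordinates and the composite of the degeneracy
maps are read off the traces and the Galois action of a diamond datum.
-/

set_option autoImplicit false

noncomputable section

open IsLocalRing GaloisRep FermatAgent.GaloisBasic

namespace FermatAgent.RT.DiamondDatum

variable {𝒪 : Type} [CommRing 𝒪] [IsDomain 𝒪] [IsDiscreteValuationRing 𝒪]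
  [IsAdicComplete (maximalIdeal 𝒪) 𝒪] [Finite (ResidueField 𝒪)] [CharZero 𝒪]
variable {κ : Type} [Fintype κ] [DecidableEq κ] {m : κ → ℕ} [∀ i, NeZero (m i)]
variable {D : DefProblem 𝒪} {p s : ℕ} [IsLocalRing (MonoidAlgebra 𝒪 (CycProd m))]
variable {H : DiamondDatum D m p s} (A : H.AuxSet)
variable {B : Type} [CommRing B] [Algebra 𝒪 B] [Finite B] [Nontrivial B]
variable {ds : Raise.RaiseSite 𝒪 GQ} (hs : Raise.SiteShape D.univMat ds)
  (φ : MonoidAlgebra 𝒪 (CycProd m) →ₐ[𝒪] B) (f : D.UR →ₐ[𝒪] Matrix (Fin s) (Fin s) B)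
  (hf : ∀ g, f (D.univMat g).trace = (sideAction A φ).Φ (H.td.t g))

omit [Finite B] [Nontrivial B] in
include hf in
/-- The equations hold where inertia has trace two. -/
theorem map_eqs_of_trace_two (ht : H.Φ (H.td.t ds.inert) = 2) (x : MvPowerSeries (Fin 3) 𝒪)
    (hx : x ∈ ds.coord.eqs) :
    f (evalAdic (R := 𝒪) (maximalIdeal D.UR) (Raise.siteVals D.univMat ds) hs.vals_mem x) = 0 := by
  refine hs.map_eqs f ?_ x hx
  have h2 : H.mkT (H.td.t ds.inert) = 2 :=
    H.act.incl_injective (by rw [incl_mkT, ht, map_ofNat])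
  rw [map_sub, map_ofNat, hf, sideAction_Φ, h2, map_ofNat (newPhi A)]
  exact sub_eq_zero.mpr (map_ofNat φ.mapMatrix 2)

include hf in
/-- The inertia coordinates die where the Galois action is unramified. -/
theorem map_siteVals_eq_zero {c : GQ} (hc : c * c = 1) (htc : (D.univMat c).trace = 0) {k : ℕ}
    (hk : (p : B) ^ k = 0) (hcond : CondAt A φ) (G : GalAct H) (hτ : G.ρ ds.inert = 1) :
    f (Raise.siteVals D.univMat ds 1) = 0 ∧ f (Raise.siteVals D.univMat ds 2) = 0 :=
  Raise.siteVals_eq_zero f (map_univMat_eq_one A hc htc hk hcond G hτ f hf)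

/-- The composite of the degeneracy maps in the Hecke algebra. -/
def tauImg (H : DiamondDatum D m p s) (ds : Raise.RaiseSite 𝒪 GQ) (c : 𝒪) : H.act.Img :=
  algebraMap 𝒪 H.act.Img c *
    ((ds.q : H.act.Img) + 1 - algebraMap 𝒪 H.act.Img ds.sgn * H.mkT (H.td.t ds.frob))

omit [Finite B] [Nontrivial B] in
include hf in
/-- The value of the composite. -/
theorem map_eval_tauS (c : 𝒪) :
    f (evalAdic (R := 𝒪) (maximalIdeal D.UR) (Raise.siteVals D.univMat ds) hs.vals_mem
      (ds.tauS c)) = (newPhi A (tauImg H ds c)).map φ := by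
  rw [hs.eval_tauS, Raise.raiseTau]
  show _ = φ.mapMatrix (newPhi A (tauImg H ds c))
  simp only [tauImg, map_mul, map_sub, map_add, map_natCast, map_one, AlgHom.commutes, hf,
    sideAction_Φ, AlgHom.mapMatrix_apply]

end FermatAgent.RT.DiamondDatum
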